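import Fermat.Agent.FF3.Glue.Node
import Fermat.Agent.FF3.Glue.Roots

/-!
# Programme I (S33, p-new half), node NODE-INST, abstract half

`Glue.Node` (contract D-B2, `FF3/Glue/Node.lean`) asks, at one node of the special fibre, for

* `a1_inj`, `const_inj1/2`, `roots1/2`  and
* `birkhoff` : a unit of `R` which is an EXACT `n`-th power in both boundary rings is an EXACT
  `n`-th power in `R`.

The expansion layer (contract D-B3, §2 of its design note) provides, for
`K := Frac W` (`W` the complete discrete valuation ring of constants of the level),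
`R := NodeRing[1/ϖ]`, `B1 = B2 := Amice[1/ϖ]` (fields), `a1 a2 := toAmiceX, toAmiceY`:

* (AM)          `toAmiceX` is injective;
* ROOT LEMMA    a unit `g` of `R` which is `constant * n-th power` in BOTH boundary rings is
                `constant * n-th power` in `R`;
* (CONST-ROOT)  an element of the boundary ring whose `n`-th power is a (nonzero) constant is a
                constant  [referee's clause; equivalently (CONST-POW): a constant which is an `n`-th
                power in the boundary ring is the `n`-th power of a constant].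

This file packages exactly these hypotheses (`NodeRings`) and derives the `Glue.Node`:
`NodeRings.toNode`.  The component rings `Oi`, `Oz` and their maps `b1`, `b2`, `cOi`, `cOz` are
parameters (they come from Step A / the DV-completion package).  Mathlib + `FF3/Glue` only.
-/

set_option autoImplicit false

namespace Fermat.Agent.FF3.GlueNode

open Fermat.Agent.FF3

/-- The hypotheses on the node ring `R` and its two boundary rings `B1`, `B2` over the field of
constants `K`, in the form delivered by the expansion layer.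

In `root_lemma` and `const_root1` the hypotheses are as strong as possible (nonzero constant, unit
root) and the conclusions as weak as possible, so that any version of the ROOT LEMMA / of the
`n`-th power criterion in the boundary ring discharges them. -/
structure NodeRings (K R B1 B2 : Type*) [Field K] [CommRing R] [CommRing B1] [CommRing B2]
    (n : ℕ) where
  /-- the constants of the node ring -/
  cR : K →+* R
  /-- expansion on the first boundary circle (`toAmiceX`) -/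
  a1 : R →+* B1
  /-- expansion on the second boundary circle (`toAmiceY`) -/
  a2 : R →+* B2
  /-- (AM) -/
  a1_inj : Function.Injective a1
  /-- ROOT LEMMA (B-ii): `constant * n-th power` on both circles `⇒` `constant * n-th power`. -/
  root_lemma : ∀ g : R, IsUnit g →
    (∃ (c : K) (y : B1), c ≠ 0 ∧ IsUnit y ∧ a1 g = a1 (cR c) * y ^ n) →
    (∃ (c : K) (y : B2), c ≠ 0 ∧ IsUnit y ∧ a2 g = a2 (cR c) * y ^ n) →
    ∃ (c : K) (r : R), g = cR c * r ^ n
  /-- (CONST-ROOT) an `n`-th root, in the first boundary ring, of a nonzero constant is a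
  constant. -/
  const_root1 : ∀ (y : B1) (c : K), c ≠ 0 → IsUnit y → y ^ n = a1 (cR c) →
    ∃ c₀ : K, a1 (cR c₀) = y

namespace NodeRings

variable {K R B1 B2 : Type*} [Field K] [CommRing R] [CommRing B1] [CommRing B2] {n : ℕ}

/-- The constants embed in the first boundary ring. -/
theorem const_inj1 [Nontrivial B1] (D : NodeRings K R B1 B2 n) :
    Function.Injective fun c : K => D.a1 (D.cR c) :=
  (D.a1.comp D.cR).injective

/-- The constants embed in the second boundary ring. -/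
theorem const_inj2 [Nontrivial B2] (D : NodeRings K R B1 B2 n) :
    Function.Injective fun c : K => D.a2 (D.cR c) :=
  (D.a2.comp D.cR).injective

/-- The constants embed in the node ring. -/
theorem cR_injective [Nontrivial B1] (D : NodeRings K R B1 B2 n) : Function.Injective D.cR :=
  fun _ _ h => D.const_inj1 (congrArg D.a1 h)

/-- **EXACT Birkhoff**: a unit of the node ring which is an exact `n`-th power on both boundary
circles is an exact `n`-th power (this is the field `birkhoff` of `Glue.Node`). -/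
theorem birkhoff [Nontrivial B1] (D : NodeRings K R B1 B2 n) (g : R) (hg : IsUnit g)
    (h1 : ∃ y : B1, y ^ n = D.a1 g) (h2 : ∃ y : B2, y ^ n = D.a2 g) : ∃ r : R, r ^ n = g := by
  rcases Nat.eq_zero_or_pos n with rfl | hn
  · -- `n = 0`: `a1 g = 1`, so `g = 1`
    obtain ⟨y, hy⟩ := h1
    refine ⟨1, D.a1_inj ?_⟩
    rw [pow_zero, map_one, ← hy, pow_zero]
  have hn0 : n ≠ 0 := hn.ne'
  obtain ⟨y1, hy1⟩ := h1
  obtain ⟨y2, hy2⟩ := h2
  have hy1u : IsUnit y1 := (isUnit_pow_iff hn0).mp (hy1 ▸ hg.map D.a1)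
  have hy2u : IsUnit y2 := (isUnit_pow_iff hn0).mp (hy2 ▸ hg.map D.a2)
  obtain ⟨c, r, hcr⟩ := D.root_lemma g hg
    ⟨1, y1, one_ne_zero, hy1u, by rw [map_one, map_one, one_mul, hy1]⟩
    ⟨1, y2, one_ne_zero, hy2u, by rw [map_one, map_one, one_mul, hy2]⟩
  -- `c ≠ 0` and `r` is a unit
  have hcu : IsUnit (D.cR c) := isUnit_of_mul_isUnit_left (hcr ▸ hg)
  have hc0 : c ≠ 0 := by
    rintro rfl
    rw [map_zero] at hcu
    have h0 : IsUnit (0 : B1) := by
      have := hcu.map D.a1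
      rwa [map_zero] at this
    exact not_isUnit_zero h0
  have hru : IsUnit r :=
    (isUnit_pow_iff hn0).mp (isUnit_of_mul_isUnit_right (hcr ▸ hg))
  obtain ⟨u, hu⟩ := hru.map D.a1
  -- `(y1 / a1 r) ^ n = a1 (cR c)`
  have hpow : (y1 * ((u⁻¹ : B1ˣ) : B1)) ^ n = D.a1 (D.cR c) := by
    have h : y1 ^ n = D.a1 (D.cR c) * (u : B1) ^ n := by
      rw [hy1, hcr, map_mul, map_pow, hu]
    rw [mul_pow, h, mul_assoc, ← mul_pow, Units.mul_inv, one_pow, mul_one]
  obtain ⟨c₀, hc₀⟩ := D.const_root1 _ c hc0 (hy1u.mul (Units.isUnit _)) hpow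
  -- `c = c₀ ^ n`
  have hcc : c₀ ^ n = c := by
    apply D.const_inj1
    show D.a1 (D.cR (c₀ ^ n)) = D.a1 (D.cR c)
    rw [map_pow, map_pow, hc₀, hpow]
  exact ⟨D.cR c₀ * r, by rw [mul_pow, ← map_pow, hcc, ← hcr]⟩

/-- (CONST-ROOT) from (CONST-POW) `+` a primitive `n`-th root of unity in the constants, when the
boundary ring is a domain. -/
theorem const_root_of_const_pow {B : Type*} [CommRing B] [IsDomain B] (φ : K →+* B) (hn : n ≠ 0)
    {ζ : K} (hζ : IsPrimitiveRoot ζ n)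
    (hpow : ∀ c : K, c ≠ 0 → (∃ y : B, IsUnit y ∧ y ^ n = φ c) → ∃ c₀ : K, c₀ ^ n = c)
    (y : B) (c : K) (hc : c ≠ 0) (hy : IsUnit y) (h : y ^ n = φ c) : ∃ c₀ : K, φ c₀ = y := by
  obtain ⟨c₀, rfl⟩ := hpow c hc ⟨y, hy, h⟩
  have hc₀ : c₀ ≠ 0 := fun h0 => hc (by rw [h0, zero_pow hn])
  have hφ : φ c₀ ≠ 0 := (map_ne_zero φ).mpr hc₀
  -- `(y / φ c₀) ^ n = 1`
  have h1 : (y * φ c₀⁻¹) ^ n = 1 := by
    rw [mul_pow, h, ← map_pow, ← map_mul, ← mul_pow, mul_inv_cancel₀ hc₀, one_pow, map_one]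
  obtain ⟨ξ, -, hξ⟩ := Glue.exists_const_of_pow_eq_one φ φ.injective hn hζ h1
  refine ⟨ξ * c₀, ?_⟩
  rw [map_mul, hξ, mul_assoc, ← map_mul, inv_mul_cancel₀ hc₀, map_one, mul_one]

section toNode

variable {Oi Oz : Type*} [CommRing Oi] [CommRing Oz] [IsDomain B1] [IsDomain B2]

/-- **NODE-INST, abstract form**: the gluing node of contract D-B2 from the hypotheses delivered
by the expansion layer (`NodeRings`), a primitive `n`-th root of unity in the constants, and the
two component rings with their maps to the boundary rings (parameters). -/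
def toNode (D : NodeRings K R B1 B2 n) (hn : n ≠ 0) {ζ : K} (hζ : IsPrimitiveRoot ζ n)
    (cOi : K →+* Oi) (cOz : K →+* Oz) (b1 : Oi →+* B1) (b2 : Oz →+* B2)
    (comm1 : ∀ c : K, D.a1 (D.cR c) = b1 (cOi c)) (comm2 : ∀ c : K, D.a2 (D.cR c) = b2 (cOz c)) :
    Glue.Node K R B1 B2 Oi Oz n where
  cR := D.cR
  cOi := cOi
  cOz := cOz
  a1 := D.a1
  a2 := D.a2
  b1 := b1
  b2 := b2
  comm1 := comm1
  comm2 := comm2
  a1_inj := D.a1_inj
  const_inj1 := D.const_inj1
  const_inj2 := D.const_inj2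
  roots1 := fun _ hy =>
    Glue.exists_const_of_pow_eq_one (D.a1.comp D.cR) (D.a1.comp D.cR).injective hn hζ hy
  roots2 := fun _ hy =>
    Glue.exists_const_of_pow_eq_one (D.a2.comp D.cR) (D.a2.comp D.cR).injective hn hζ hy
  birkhoff := D.birkhoff

@[simp] theorem toNode_a1 (D : NodeRings K R B1 B2 n) (hn : n ≠ 0) {ζ : K}
    (hζ : IsPrimitiveRoot ζ n) (cOi : K →+* Oi) (cOz : K →+* Oz) (b1 : Oi →+* B1) (b2 : Oz →+* B2)
    (comm1 : ∀ c : K, D.a1 (D.cR c) = b1 (cOi c)) (comm2 : ∀ c : K, D.a2 (D.cR c) = b2 (cOz c)) :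
    (D.toNode hn hζ cOi cOz b1 b2 comm1 comm2).a1 = D.a1 := rfl

@[simp] theorem toNode_a2 (D : NodeRings K R B1 B2 n) (hn : n ≠ 0) {ζ : K}
    (hζ : IsPrimitiveRoot ζ n) (cOi : K →+* Oi) (cOz : K →+* Oz) (b1 : Oi →+* B1) (b2 : Oz →+* B2)
    (comm1 : ∀ c : K, D.a1 (D.cR c) = b1 (cOi c)) (comm2 : ∀ c : K, D.a2 (D.cR c) = b2 (cOz c)) :
    (D.toNode hn hζ cOi cOz b1 b2 comm1 comm2).a2 = D.a2 := rfl

@[simp] theorem toNode_b1 (D : NodeRings K R B1 B2 n) (hn : n ≠ 0) {ζ : K}
    (hζ : IsPrimitiveRoot ζ n) (cOi : K →+* Oi) (cOz : K →+* Oz) (b1 : Oi →+* B1) (b2 : Oz →+* B2)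
    (comm1 : ∀ c : K, D.a1 (D.cR c) = b1 (cOi c)) (comm2 : ∀ c : K, D.a2 (D.cR c) = b2 (cOz c)) :
    (D.toNode hn hζ cOi cOz b1 b2 comm1 comm2).b1 = b1 := rfl

@[simp] theorem toNode_b2 (D : NodeRings K R B1 B2 n) (hn : n ≠ 0) {ζ : K}
    (hζ : IsPrimitiveRoot ζ n) (cOi : K →+* Oi) (cOz : K →+* Oz) (b1 : Oi →+* B1) (b2 : Oz →+* B2)
    (comm1 : ∀ c : K, D.a1 (D.cR c) = b1 (cOi c)) (comm2 : ∀ c : K, D.a2 (D.cR c) = b2 (cOz c)) :
    (D.toNode hn hζ cOi cOz b1 b2 comm1 comm2).b2 = b2 := rfl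

@[simp] theorem toNode_cR (D : NodeRings K R B1 B2 n) (hn : n ≠ 0) {ζ : K}
    (hζ : IsPrimitiveRoot ζ n) (cOi : K →+* Oi) (cOz : K →+* Oz) (b1 : Oi →+* B1) (b2 : Oz →+* B2)
    (comm1 : ∀ c : K, D.a1 (D.cR c) = b1 (cOi c)) (comm2 : ∀ c : K, D.a2 (D.cR c) = b2 (cOz c)) :
    (D.toNode hn hζ cOi cOz b1 b2 comm1 comm2).cR = D.cR := rfl

@[simp] theorem toNode_cOi (D : NodeRings K R B1 B2 n) (hn : n ≠ 0) {ζ : K}
    (hζ : IsPrimitiveRoot ζ n) (cOi : K →+* Oi) (cOz : K →+* Oz) (b1 : Oi →+* B1) (b2 : Oz →+* B2)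
    (comm1 : ∀ c : K, D.a1 (D.cR c) = b1 (cOi c)) (comm2 : ∀ c : K, D.a2 (D.cR c) = b2 (cOz c)) :
    (D.toNode hn hζ cOi cOz b1 b2 comm1 comm2).cOi = cOi := rfl

@[simp] theorem toNode_cOz (D : NodeRings K R B1 B2 n) (hn : n ≠ 0) {ζ : K}
    (hζ : IsPrimitiveRoot ζ n) (cOi : K →+* Oi) (cOz : K →+* Oz) (b1 : Oi →+* B1) (b2 : Oz →+* B2)
    (comm1 : ∀ c : K, D.a1 (D.cR c) = b1 (cOi c)) (comm2 : ∀ c : K, D.a2 (D.cR c) = b2 (cOz c)) :
    (D.toNode hn hζ cOi cOz b1 b2 comm1 comm2).cOz = cOz := rfl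

end toNode

end NodeRings

end Fermat.Agent.FF3.GlueNode
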