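import Fermat.Agent.FF3.GlueNode.Abstract
import Fermat.Agent.FF3.AmiceU.Disc

/-!
# Programme I, node NODE-INST: the boundary ring `BAmice K` over a discretely valued `K`

For `K` a complete, discretely valued (`AmiceU.IsDiscreteNorm ϖ`) ultrametric normed field the
bounded Amice ring `BAmice K` (`= Amice[1/ϖ]`, a field) satisfies the clauses of `NodeRings` which
only concern the boundary ring:

* `isDomain_bAmice`      : `BAmice K` is a domain;
* `const_pow_bAmice`     : (CONST-POW) a nonzero constant which is an `n`-th power in `BAmice K` is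
                           the `n`-th power of a constant;
* `const_root_bAmice`    : (CONST-ROOT) an element whose `n`-th power is a nonzero constant is a
                           constant (with a primitive `n`-th root of unity in `K`);
* `nodeRingsOfBAmice`    : the `NodeRings` structure for ANY node ring `R` with maps to `BAmice K`,
                           from (AM) and the ROOT LEMMA alone.

On top of `FF3/Amice` (bounded Amice ring) and `FF3/AmiceU` (unit structure, `n`-th power
criterion).
-/

set_option autoImplicit false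

namespace Fermat.Agent.FF3.GlueNode

open Fermat.Agent.FF3 Fermat.Agent.FF3.Amice Fermat.Agent.FF3.AmiceU Fermat.Agent.FF3.Birkhoff

variable {K : Type*} [NormedField K] [IsUltrametricDist K] [CompleteSpace K]

/-- Over a discretely valued field the bounded Amice ring is a domain. -/
theorem isDomain_bAmice {ϖ : K} (hϖ : IsDiscreteNorm ϖ) : IsDomain (BAmice K) := by
  have : Nontrivial (BAmice K) := NormOneClass.nontrivial
  have : NoZeroDivisors (BAmice K) := ⟨fun {x y} h => by
    have h0 : ‖x‖ * ‖y‖ = 0 := by rw [← norm_mul_of_discrete hϖ, h, norm_zero]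
    rcases mul_eq_zero.mp h0 with h | h
    · exact Or.inl (norm_eq_zero.mp h)
    · exact Or.inr (norm_eq_zero.mp h)⟩
  exact NoZeroDivisors.to_isDomain _

theorem isPlus_zero : IsPlus (0 : BAmice K) :=
  ⟨AddSubgroup.zero_mem _, by rw [norm_zero]; exact zero_le_one⟩

theorem isMinus_zero : IsMinus (0 : BAmice K) :=
  ⟨AddSubgroup.zero_mem _, by rw [norm_zero]; exact zero_lt_one⟩

/-- A constant is a normal form. -/
theorem algebraMap_eq_nf (c : K) : algebraMap K (BAmice K) c = NF c 0 0 0 := by
  unfold NF
  rw [zpow_zero, Units.val_one, mul_one, add_zero, mul_one, mul_one]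

/-- (CONST-POW): a nonzero constant which is an `n`-th power in the boundary ring is the `n`-th
power of a constant. -/
theorem const_pow_bAmice {ϖ : K} (hϖ : IsDiscreteNorm ϖ) {n : ℕ} {c : K} (hc : c ≠ 0)
    {y : BAmice K} (h : y ^ n = algebraMap K (BAmice K) c) : ∃ c₀ : K, c₀ ^ n = c := by
  have : Nontrivial (BAmice K) := NormOneClass.nontrivial
  rcases Nat.eq_zero_or_pos n with rfl | hn
  · -- `n = 0`: `c = 1`
    refine ⟨1, ?_⟩
    rw [pow_zero] at h ⊢
    apply (algebraMap K (BAmice K)).injective
    rw [map_one, ← h]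
  have hy0 : y ≠ 0 := by
    rintro rfl
    rw [zero_pow hn.ne'] at h
    have : algebraMap K (BAmice K) c = 0 := h.symm
    rw [map_eq_zero] at this
    exact hc this
  obtain ⟨cv, av, bv, dv, hcv, -, -, hbv, hdv, hnf⟩ := exists_nf_of_discrete hϖ hy0
  have h' : NF c 0 0 0 = algebraMap K (BAmice K) 1 * NF cv av bv dv ^ n := by
    rw [map_one, one_mul, ← hnf, h, algebraMap_eq_nf]
  obtain ⟨-, h2, -, -⟩ := eq_of_nf_eq_const_mul_nf_pow hc one_ne_zero hcv isPlus_zero isMinus_zero
    hbv hdv n h'
  exact ⟨cv, by rw [h2, one_mul]⟩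

/-- (CONST-ROOT): an element of the boundary ring whose `n`-th power is a nonzero constant is a
constant, provided the constants contain a primitive `n`-th root of unity. -/
theorem const_root_bAmice {ϖ : K} (hϖ : IsDiscreteNorm ϖ) {n : ℕ} (hn : n ≠ 0) {ζ : K}
    (hζ : IsPrimitiveRoot ζ n) (y : BAmice K) (c : K) (hc : c ≠ 0)
    (h : y ^ n = algebraMap K (BAmice K) c) : ∃ c₀ : K, algebraMap K (BAmice K) c₀ = y := by
  have := isDomain_bAmice hϖ
  have hyu : IsUnit y := by
    refine (isUnit_pow_iff hn).mp ?_
    rw [h]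
    exact (isUnit_iff_ne_zero.mpr hc).map _
  exact NodeRings.const_root_of_const_pow (algebraMap K (BAmice K)) hn hζ
    (fun c' hc' ⟨y', _, hy'⟩ => const_pow_bAmice hϖ hc' hy') y c hc hyu h

/-- **NODE-INST with the boundary rings `BAmice K`**: for ANY node ring `R` over `K` with two
expansions into `BAmice K` which are the identity on constants, the structure `NodeRings` follows
from (AM) `a1` injective and the ROOT LEMMA alone. -/
def nodeRingsOfBAmice {ϖ : K} (hϖ : IsDiscreteNorm ϖ) {n : ℕ} (hn : n ≠ 0) {ζ : K}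
    (hζ : IsPrimitiveRoot ζ n) {R : Type*} [CommRing R] (cR : K →+* R) (a1 a2 : R →+* BAmice K)
    (ha1 : ∀ c : K, a1 (cR c) = algebraMap K (BAmice K) c)
    (a1_inj : Function.Injective a1)
    (root_lemma : ∀ g : R, IsUnit g →
      (∃ (c : K) (y : BAmice K), c ≠ 0 ∧ IsUnit y ∧ a1 g = a1 (cR c) * y ^ n) →
      (∃ (c : K) (y : BAmice K), c ≠ 0 ∧ IsUnit y ∧ a2 g = a2 (cR c) * y ^ n) →
      ∃ (c : K) (r : R), g = cR c * r ^ n) :
    NodeRings K R (BAmice K) (BAmice K) n where
  cR := cR
  a1 := a1
  a2 := a2
  a1_inj := a1_inj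
  root_lemma := root_lemma
  const_root1 := fun y c hc _ h => by
    obtain ⟨c₀, hc₀⟩ := const_root_bAmice hϖ hn hζ y c hc (by rw [h, ha1])
    exact ⟨c₀, by rw [ha1, hc₀]⟩

end Fermat.Agent.FF3.GlueNode
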