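import Fermat.Agent.FF3.GlueNode.Abstract
import Fermat.Agent.FF3.Glue.Frame

/-!
# Programme I, node NODE-INST: the gluing frame of a family of nodes

A family `D s : NodeRings K (R s) (B1 s) (B2 s) n` (one for every node `s` of the special fibre)
sharing the constants `K` and the two component rings `Oi`, `Oz` gives the `Glue.Frame` of contract
D-B2, part 2.
-/

set_option autoImplicit false

namespace Fermat.Agent.FF3.GlueNode

open Fermat.Agent.FF3

variable {K Oi Oz : Type*} [Field K] [CommRing Oi] [CommRing Oz] {ν : Type*}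
  {R B1 B2 : ν → Type*} [∀ s, CommRing (R s)] [∀ s, CommRing (B1 s)] [∀ s, CommRing (B2 s)]
  [∀ s, IsDomain (B1 s)] [∀ s, IsDomain (B2 s)] {n : ℕ}

/-- The gluing frame of a family of node rings. -/
def toFrame (D : ∀ s, NodeRings K (R s) (B1 s) (B2 s) n) (hn : n ≠ 0) {ζ : K}
    (hζ : IsPrimitiveRoot ζ n) (cOi : K →+* Oi) (cOz : K →+* Oz) (b1 : ∀ s, Oi →+* B1 s)
    (b2 : ∀ s, Oz →+* B2 s) (comm1 : ∀ s (c : K), (D s).a1 ((D s).cR c) = b1 s (cOi c))
    (comm2 : ∀ s (c : K), (D s).a2 ((D s).cR c) = b2 s (cOz c)) :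
    Glue.Frame K Oi Oz ν R B1 B2 n where
  node := fun s => (D s).toNode hn hζ cOi cOz (b1 s) (b2 s) (comm1 s) (comm2 s)
  cOi := cOi
  cOz := cOz
  hcOi := fun _ => rfl
  hcOz := fun _ => rfl

@[simp] theorem toFrame_node (D : ∀ s, NodeRings K (R s) (B1 s) (B2 s) n) (hn : n ≠ 0) {ζ : K}
    (hζ : IsPrimitiveRoot ζ n) (cOi : K →+* Oi) (cOz : K →+* Oz) (b1 : ∀ s, Oi →+* B1 s)
    (b2 : ∀ s, Oz →+* B2 s) (comm1 : ∀ s (c : K), (D s).a1 ((D s).cR c) = b1 s (cOi c))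
    (comm2 : ∀ s (c : K), (D s).a2 ((D s).cR c) = b2 s (cOz c)) (s : ν) :
    (toFrame D hn hζ cOi cOz b1 b2 comm1 comm2).node s
      = (D s).toNode hn hζ cOi cOz (b1 s) (b2 s) (comm1 s) (comm2 s) := rfl

/-- A global root datum on the frame of a family of node rings: ONE function (its images `g s` in
the node rings, units), ONE exact `n`-th root on each of the two components. -/
def globalDatum (D : ∀ s, NodeRings K (R s) (B1 s) (B2 s) n) (hn : n ≠ 0) {ζ : K}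
    (hζ : IsPrimitiveRoot ζ n) (cOi : K →+* Oi) (cOz : K →+* Oz) (b1 : ∀ s, Oi →+* B1 s)
    (b2 : ∀ s, Oz →+* B2 s) (comm1 : ∀ s (c : K), (D s).a1 ((D s).cR c) = b1 s (cOi c))
    (comm2 : ∀ s (c : K), (D s).a2 ((D s).cR c) = b2 s (cOz c))
    (g : ∀ s, R s) (hg : ∀ s, IsUnit (g s)) (yi : Oi) (yz : Oz)
    (h1 : ∀ s, b1 s yi ^ n = (D s).a1 (g s)) (h2 : ∀ s, b2 s yz ^ n = (D s).a2 (g s)) :
    Glue.GlobalDatum (toFrame D hn hζ cOi cOz b1 b2 comm1 comm2) where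
  g := g
  hg := hg
  yi := yi
  yz := yz
  h1 := h1
  h2 := h2

end Fermat.Agent.FF3.GlueNode
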