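import Fermat.Agent.FF3.GlueNode.AmiceConst
import Fermat.Agent.FF3.GlueNode.Frame
import Fermat.Agent.FF3.AmiceU.Node

/-!
# Programme I, node NODE-INST: the concrete gluing node

`K` a complete discretely valued ultrametric normed field (the constants of a level, with `ϖ`
inverted), `π : K` the thickness of the node, `ax : AmiceU.NodeAx π R` the node ring
`R = NodeRing[1/ϖ]` with its two expansions `ax.a1 ax.a2 : R →+* BAmice K`.  Then, with a primitive
`n`-th root of unity in `K`: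

* `nodeRings ax`  : `NodeRings K R (BAmice K) (BAmice K) n`  (`cR = ax.cR`, `a1 = ax.a1`,
                    `a2 = ax.a2`);
* `node ax`       : the `Glue.Node K R (BAmice K) (BAmice K) Oi Oz n` of contract D-B2, the
                    component rings `Oi`, `Oz` and their maps to the boundary rings being parameters;
* `frame`         : the `Glue.Frame` of a family of nodes `ax s : NodeAx (π s) (R s)`.
-/

set_option autoImplicit false

namespace Fermat.Agent.FF3.GlueNode

open Fermat.Agent.FF3 Fermat.Agent.FF3.Amice Fermat.Agent.FF3.AmiceU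

variable {K : Type*} [NormedField K] [IsUltrametricDist K] [CompleteSpace K]

/-- The hypotheses of `NodeRings` for the concrete node ring of `AmiceU.NodeAx`. -/
noncomputable def nodeRings {π ϖ : K} {R : Type*} [CommRing R] (ax : NodeAx π R)
    (hϖ : IsDiscreteNorm ϖ) (hπ : π ≠ 0) {n : ℕ}
    (hn : n ≠ 0) {ζ : K} (hζ : IsPrimitiveRoot ζ n) :
    NodeRings K R (BAmice K) (BAmice K) n :=
  nodeRingsOfBAmice hϖ hn hζ ax.cR ax.a1 ax.a2 ax.a1_cR ax.a1_inj
    (ax.root_lemma_literal hϖ hπ n)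

@[simp] theorem nodeRings_cR {π ϖ : K} {R : Type*} [CommRing R] (ax : NodeAx π R)
    (hϖ : IsDiscreteNorm ϖ) (hπ : π ≠ 0)
    {n : ℕ} (hn : n ≠ 0) {ζ : K} (hζ : IsPrimitiveRoot ζ n) :
    (nodeRings ax hϖ hπ hn hζ).cR = ax.cR := rfl

@[simp] theorem nodeRings_a1 {π ϖ : K} {R : Type*} [CommRing R] (ax : NodeAx π R)
    (hϖ : IsDiscreteNorm ϖ) (hπ : π ≠ 0)
    {n : ℕ} (hn : n ≠ 0) {ζ : K} (hζ : IsPrimitiveRoot ζ n) :
    (nodeRings ax hϖ hπ hn hζ).a1 = ax.a1 := rfl

@[simp] theorem nodeRings_a2 {π ϖ : K} {R : Type*} [CommRing R] (ax : NodeAx π R)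
    (hϖ : IsDiscreteNorm ϖ) (hπ : π ≠ 0)
    {n : ℕ} (hn : n ≠ 0) {ζ : K} (hζ : IsPrimitiveRoot ζ n) :
    (nodeRings ax hϖ hπ hn hζ).a2 = ax.a2 := rfl

variable {Oi Oz : Type*} [CommRing Oi] [CommRing Oz]

/-- **NODE-INST**: the gluing node of contract D-B2 at a node of thickness `π`.  The maps
`b1 : Oi →+* BAmice K`, `b2 : Oz →+* BAmice K` (expansions of the two completed component rings on
the two boundary circles) are parameters; they only have to be the identity on constants. -/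
noncomputable def node {π ϖ : K} {R : Type*} [CommRing R] (ax : NodeAx π R)
    (hϖ : IsDiscreteNorm ϖ) (hπ : π ≠ 0) {n : ℕ}
    (hn : n ≠ 0) {ζ : K} (hζ : IsPrimitiveRoot ζ n) (cOi : K →+* Oi) (cOz : K →+* Oz)
    (b1 : Oi →+* BAmice K) (b2 : Oz →+* BAmice K)
    (hb1 : ∀ c : K, b1 (cOi c) = algebraMap K (BAmice K) c)
    (hb2 : ∀ c : K, b2 (cOz c) = algebraMap K (BAmice K) c) :
    Glue.Node K R (BAmice K) (BAmice K) Oi Oz n :=
  haveI := isDomain_bAmice hϖ
  (nodeRings ax hϖ hπ hn hζ).toNode hn hζ cOi cOz b1 b2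
    (fun c => (ax.a1_cR c).trans (hb1 c).symm) (fun c => (ax.a2_cR c).trans (hb2 c).symm)

/-- The gluing frame of a family of nodes over the same constants. -/
noncomputable def frame {ν : Type*} {π : ν → K} {ϖ : K} {R : ν → Type*} [∀ s, CommRing (R s)]
    (ax : ∀ s, NodeAx (π s) (R s))
    (hϖ : IsDiscreteNorm ϖ) (hπ : ∀ s, π s ≠ 0) {n : ℕ} (hn : n ≠ 0) {ζ : K}
    (hζ : IsPrimitiveRoot ζ n) (cOi : K →+* Oi) (cOz : K →+* Oz)
    (b1 : ν → Oi →+* BAmice K) (b2 : ν → Oz →+* BAmice K)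
    (hb1 : ∀ s (c : K), b1 s (cOi c) = algebraMap K (BAmice K) c)
    (hb2 : ∀ s (c : K), b2 s (cOz c) = algebraMap K (BAmice K) c) :
    Glue.Frame K Oi Oz ν R (fun _ => BAmice K) (fun _ => BAmice K) n where
  node := fun s => node (ax s) hϖ (hπ s) hn hζ cOi cOz (b1 s) (b2 s) (hb1 s) (hb2 s)
  cOi := cOi
  cOz := cOz
  hcOi := fun _ => rfl
  hcOz := fun _ => rfl

end Fermat.Agent.FF3.GlueNode
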