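import Fermat.Agent.FF3.GlueNode.Concrete
import Fermat.Agent.FF3.AmiceU.NodeInst

/-!
# Programme I, node NODE-INST: the gluing node of the node algebra `NodeB π`

The fully concrete instance: `R := NodeRing.NodeB π` (helper10), expansions `toX`, `toY`, axioms
`AmiceU.nodeAx` (helper11).
-/

set_option autoImplicit false

namespace Fermat.Agent.FF3.GlueNode

open Fermat.Agent.FF3 Fermat.Agent.FF3.Amice Fermat.Agent.FF3.AmiceU Fermat.Agent.FF3.NodeRing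

variable {K : Type*} [NormedField K] [IsUltrametricDist K] [CompleteSpace K]
variable {Oi Oz : Type*} [CommRing Oi] [CommRing Oz]

/-- The gluing node (contract D-B2) of the node algebra `NodeB π`. -/
noncomputable def nodeB {π ϖ : K} (hϖ : IsDiscreteNorm ϖ) (hπ : π ≠ 0) (hπ1 : ‖π‖ < 1) {n : ℕ}
    (hn : n ≠ 0) {ζ : K} (hζ : IsPrimitiveRoot ζ n) (cOi : K →+* Oi) (cOz : K →+* Oz)
    (b1 : Oi →+* BAmice K) (b2 : Oz →+* BAmice K)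
    (hb1 : ∀ c : K, b1 (cOi c) = algebraMap K (BAmice K) c)
    (hb2 : ∀ c : K, b2 (cOz c) = algebraMap K (BAmice K) c) :
    Glue.Node K (NodeB π) (BAmice K) (BAmice K) Oi Oz n :=
  node (nodeAx hπ hπ1) hϖ hπ hn hζ cOi cOz b1 b2 hb1 hb2

/-- The gluing frame of a family of node algebras over the same constants. -/
noncomputable def frameB {ν : Type*} {π : ν → K} {ϖ : K} (hϖ : IsDiscreteNorm ϖ)
    (hπ : ∀ s, π s ≠ 0) (hπ1 : ∀ s, ‖π s‖ < 1) {n : ℕ} (hn : n ≠ 0) {ζ : K}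
    (hζ : IsPrimitiveRoot ζ n) (cOi : K →+* Oi) (cOz : K →+* Oz)
    (b1 : ν → Oi →+* BAmice K) (b2 : ν → Oz →+* BAmice K)
    (hb1 : ∀ s (c : K), b1 s (cOi c) = algebraMap K (BAmice K) c)
    (hb2 : ∀ s (c : K), b2 s (cOz c) = algebraMap K (BAmice K) c) :
    Glue.Frame K Oi Oz ν (fun s => NodeB (π s)) (fun _ => BAmice K) (fun _ => BAmice K) n :=
  frame (fun s => nodeAx (hπ s) (hπ1 s)) hϖ hπ hn hζ cOi cOz b1 b2 hb1 hb2

section proj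

variable {π ϖ : K} (hϖ : IsDiscreteNorm ϖ) (hπ : π ≠ 0) (hπ1 : ‖π‖ < 1) {n : ℕ}
  (hn : n ≠ 0) {ζ : K} (hζ : IsPrimitiveRoot ζ n) (cOi : K →+* Oi) (cOz : K →+* Oz)
  (b1 : Oi →+* BAmice K) (b2 : Oz →+* BAmice K)
  (hb1 : ∀ c : K, b1 (cOi c) = algebraMap K (BAmice K) c)
  (hb2 : ∀ c : K, b2 (cOz c) = algebraMap K (BAmice K) c)

@[simp] theorem nodeB_a1 (g : NodeB π) :
    (nodeB hϖ hπ hπ1 hn hζ cOi cOz b1 b2 hb1 hb2).a1 g = toX g := rfl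

@[simp] theorem nodeB_a2 (g : NodeB π) :
    (nodeB hϖ hπ hπ1 hn hζ cOi cOz b1 b2 hb1 hb2).a2 g = toY g := rfl

@[simp] theorem nodeB_cR (c : K) :
    (nodeB hϖ hπ hπ1 hn hζ cOi cOz b1 b2 hb1 hb2).cR c = algebraMap K (NodeB π) c := rfl

@[simp] theorem nodeB_cOi : (nodeB hϖ hπ hπ1 hn hζ cOi cOz b1 b2 hb1 hb2).cOi = cOi := rfl

@[simp] theorem nodeB_cOz : (nodeB hϖ hπ hπ1 hn hζ cOi cOz b1 b2 hb1 hb2).cOz = cOz := rfl

@[simp] theorem nodeB_b1 : (nodeB hϖ hπ hπ1 hn hζ cOi cOz b1 b2 hb1 hb2).b1 = b1 := rfl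

@[simp] theorem nodeB_b2 : (nodeB hϖ hπ hπ1 hn hζ cOi cOz b1 b2 hb1 hb2).b2 = b2 := rfl

end proj

@[simp] theorem frameB_node {ν : Type*} {π : ν → K} {ϖ : K} (hϖ : IsDiscreteNorm ϖ)
    (hπ : ∀ s, π s ≠ 0) (hπ1 : ∀ s, ‖π s‖ < 1) {n : ℕ} (hn : n ≠ 0) {ζ : K}
    (hζ : IsPrimitiveRoot ζ n) (cOi : K →+* Oi) (cOz : K →+* Oz)
    (b1 : ν → Oi →+* BAmice K) (b2 : ν → Oz →+* BAmice K)
    (hb1 : ∀ s (c : K), b1 s (cOi c) = algebraMap K (BAmice K) c)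
    (hb2 : ∀ s (c : K), b2 s (cOz c) = algebraMap K (BAmice K) c) (s : ν) :
    (frameB hϖ hπ hπ1 hn hζ cOi cOz b1 b2 hb1 hb2).node s
      = nodeB hϖ (hπ s) (hπ1 s) hn hζ cOi cOz (b1 s) (b2 s) (hb1 s) (hb2 s) := rfl


end Fermat.Agent.FF3.GlueNode
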