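import Fermat.Agent.FF3.StepB.Pack
import Fermat.Agent.FF3.BLift.ModularConst
import Fermat.Agent.FF3.GlueNode.NodeB

/-!
# PROGRAMME I, Step B, T3: the node input of `StepB/Pack.lean` at the modular tower

helper22's `StepB.NodeInput Dt C W' cO n e` (structure (1) of `FF3/StepB/Pack.lean`) at

* `C := packC Dt Sl` = helper16's `BLift.compPack B hB hqM (nonempty_crossing Dt) Sl` (helper24's
  component data `DiscInst.compDatum`), seen over `setup Dt` (`rfl`);
* `W' := ↥(WS B q Sl)` (the integers of the coefficient field of the level),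
  `cO := cODt Dt Sl` = helper16's `BLift.cOComp`;
* `K := constK₁ (L e) Sl j`, `R := NodeB (thickK₁ (L e) Sl j)`, `Bd := BAmice K`,
  `rings := GlueNode.nodeRings (AmiceU.nodeAx …) …` (a1 = toX, a2 = toY, cR = algebraMap),
  `φ := BLift.iotaWS e` (helper16), `b1 b2` and the three node facts := the fields of helper16's
  `BLift.nodePartComp` (= helper20's `ExpandBR.nodePart`), `comm1 comm2` := helper16's
  `b1_cOComp`, `b2_cOComp`.

`(Ω, j, hj)` : any complete ultrametric normed field over `(ℚ̄, B)` (helper2's `AbsB` at the end).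
-/

set_option autoImplicit false
set_option linter.unusedSectionVars false
set_option linter.style.haveILetI false
set_option synthInstance.maxHeartbeats 400000
set_option maxHeartbeats 4000000

noncomputable section

namespace Fermat.Agent.FF3.GlueNode

open ModularCurve AlgebraicCurve IsLocalRing
open Fermat.Agent.Red Fermat.Agent.X0 Fermat.Agent.Hecke Fermat.Agent.BR.SS
open Fermat.Agent.BR.Final Fermat.Agent.BR2 Fermat.Agent.BR2.SetupOfData
open Fermat.Agent.BR Fermat.Agent.Pseudo Fermat.Agent.BR.Inst.Levels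
open Fermat.Agent.BR.Inst.FKCover Fermat.Agent.BR.S0 Fermat.Agent.BR.S0.PointDict
open Fermat.Agent.BR.S0.RedModular Fermat.Agent.BR.TwoVal Fermat.Agent.BR.ValTwo
open Fermat.Agent.BR.Inst.AnnulusInstFinal
open Fermat.Agent.FF3.StepA Fermat.Agent.FF3.LevelDesc Fermat.Agent.FF3.B4 Fermat.Agent.FF3
open Fermat.Agent.FF3.StepB Fermat.Agent.FF3.ExpandBR Fermat.Agent.FF3.Amice
  Fermat.Agent.FF3.AmiceU Fermat.Agent.FF3.NodeRing

attribute [local instance] normedAlgebraSubfield

variable {M q : ℕ} [NeZero M] [hq : Fact q.Prime]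
variable {B : ValuationSubring Kb} {hB : B.LiesOverPrime q} {hqM : ¬ q ∣ M}
variable [IsAlgClosed (ResidueField B)]

/-- the component pack of the level `Sl` (helper24's component data), over `setup Dt` -/
def packC (Dt : ModularData M q B hB hqM) (Sl : Finset Kb) :
    CompPack.{0, 0, 0, 0, 0, 0, 0} (setup Dt) (levelField M q Sl) (levelUnif M hB Sl) :=
  BLift.compPack B hB hqM (nonempty_crossing Dt) Sl

/-- the integers of the coefficient field of the level in the completed valuation rings -/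
def cODt (Dt : ModularData M q B hB hqM) (Sl : Finset Kb) (v : Fin 2) :
    ↥(WS B q Sl) →+* (packC Dt Sl).Oh v :=
  BLift.cOComp B hB hqM (nonempty_crossing Dt) Sl v

theorem cODt_injective (Dt : ModularData M q B hB hqM) (Sl : Finset Kb) (v : Fin 2) :
    Function.Injective (cODt Dt Sl v) :=
  BLift.cOComp_injective B hB hqM (nonempty_crossing Dt) Sl v

variable {Ω : Type} [NormedField Ω] [IsUltrametricDist Ω] [CompleteSpace Ω]
  (j : Kb →+* Ω) (hj : ∀ c : Kb, ‖j c‖ ≤ 1 ↔ c ∈ B)

/-- **The node input at the crossing `e`, level `Sl`, of the modular tower.** -/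
def nodeInputDt (Dt : ModularData M q B hB hqM) (Sl : Finset Kb) (n : ℕ) (hn : n ≠ 0)
    (ζ₀ : ↥(WS B q Sl)) (hζ₀ : IsPrimitiveRoot ζ₀ n)
    (e : Crossing (chartDataModular B hB hqM)) :
    NodeInput Dt (packC Dt Sl) ↥(WS B q Sl) (cODt Dt Sl) n e :=
  let hne := nonempty_crossing Dt
  let L := annulusLevels_modular_final B hB hqM hne e
  let hπ : thickK₁ L Sl j ≠ 0 := thickK₁_ne_zero L Sl j hj
  let hπ1 : ‖thickK₁ L Sl j‖ < 1 := norm_thickK₁_lt_one L Sl j hj
  let hϖ : IsDiscreteNorm (unifK₁ L Sl j) := isDiscreteNorm_unifK₁ L Sl j hj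
  let P := BLift.nodePartComp B hB hqM hne e j hj Sl
  { K := constK₁ L Sl j
    R := NodeB (thickK₁ L Sl j)
    Bd := BAmice (constK₁ L Sl j)
    domBd := isDomain_bAmice hϖ
    rings := nodeRings (nodeAx hπ hπ1) hϖ hπ hn
      (hζ₀.map_of_injective (BLift.iotaWS_injective B hB hqM hne e j Sl))
    φ := BLift.iotaWS B hB hqM hne e j Sl
    φ_inj := BLift.iotaWS_injective B hB hqM hne e j Sl
    b1 := P.b1
    b2 := P.b2
    comm1 := fun c =>
      ((toX : NodeB (thickK₁ L Sl j) →ₐ[constK₁ L Sl j] BAmice (constK₁ L Sl j)).commutes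
        (BLift.iotaWS B hB hqM hne e j Sl c)).trans
        (BLift.b1_cOComp B hB hqM hne e j hj Sl c).symm
    comm2 := fun c =>
      ((toY : NodeB (thickK₁ L Sl j) →ₐ[constK₁ L Sl j] BAmice (constK₁ L Sl j)).commutes
        (BLift.iotaWS B hB hqM hne e j Sl c)).trans
        (BLift.b2_cOComp B hB hqM hne e j hj Sl c).symm
    node_rat := P.node_rat
    node_red := P.node_red
    node_div := P.node_div }

/-- **The node action over `nodeInputDt`, from its components in the concrete dialect**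
(`toX`, `toY`, `algebraMap`, `BLift.iotaWS`, the boundary maps of `BLift.nodePartComp`). -/
def nodeActionDt (Dt : ModularData M q B hB hqM) (Sl : Finset Kb) (n : ℕ) (hn : n ≠ 0)
    (ζ₀ : ↥(WS B q Sl)) (hζ₀ : IsPrimitiveRoot ζ₀ n)
    (e : Crossing (chartDataModular B hB hqM))
    (σW : ↥(WS B q Sl) →+* ↥(WS B q Sl)) (σh : ∀ v, (packC Dt Sl).Oh v →+* (packC Dt Sl).Oh v)
    (σR : NodeB (thickK₁ (annulusLevels_modular_final B hB hqM (nonempty_crossing Dt) e) Sl j)
      →+* NodeB (thickK₁ (annulusLevels_modular_final B hB hqM (nonempty_crossing Dt) e) Sl j))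
    (σB1 σB2 :
      BAmice (constK₁ (annulusLevels_modular_final B hB hqM (nonempty_crossing Dt) e) Sl j)
      →+* BAmice (constK₁ (annulusLevels_modular_final B hB hqM (nonempty_crossing Dt) e) Sl j))
    (hcR : ∀ c : ↥(WS B q Sl),
      σR (algebraMap _ _ (BLift.iotaWS B hB hqM (nonempty_crossing Dt) e j Sl c))
        = algebraMap _ _ (BLift.iotaWS B hB hqM (nonempty_crossing Dt) e j Sl (σW c)))
    (ha1 : ∀ r, σB1 (toX r) = toX (σR r)) (ha2 : ∀ r, σB2 (toY r) = toY (σR r))
    (hb1 : ∀ y : (packC Dt Sl).Oh 0,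
      σB1 ((BLift.nodePartComp B hB hqM (nonempty_crossing Dt) e j hj Sl).b1 y)
        = (BLift.nodePartComp B hB hqM (nonempty_crossing Dt) e j hj Sl).b1 (σh 0 y))
    (hb2 : ∀ y : (packC Dt Sl).Oh 1,
      σB2 ((BLift.nodePartComp B hB hqM (nonempty_crossing Dt) e j hj Sl).b2 y)
        = (BLift.nodePartComp B hB hqM (nonempty_crossing Dt) e j hj Sl).b2 (σh 1 y)) :
    NodeAction (nodeInputDt j hj Dt Sl n hn ζ₀ hζ₀ e) σW σh where
  σR := σR
  σB1 := σB1
  σB2 := σB2
  hcR := hcR
  ha1 := ha1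
  ha2 := ha2
  hb1 := hb1
  hb2 := hb2

/-! ### the projections of `nodeInputDt` (all `rfl`) -/

section proj

variable (Dt : ModularData M q B hB hqM) (Sl : Finset Kb) (n : ℕ) (hn : n ≠ 0)
  (ζ₀ : ↥(WS B q Sl)) (hζ₀ : IsPrimitiveRoot ζ₀ n) (e : Crossing (chartDataModular B hB hqM))

theorem nodeInputDt_a1
    (r : NodeB (thickK₁ (annulusLevels_modular_final B hB hqM (nonempty_crossing Dt) e) Sl j)) :
    (nodeInputDt j hj Dt Sl n hn ζ₀ hζ₀ e).rings.a1 r = toX r := rfl

theorem nodeInputDt_a2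
    (r : NodeB (thickK₁ (annulusLevels_modular_final B hB hqM (nonempty_crossing Dt) e) Sl j)) :
    (nodeInputDt j hj Dt Sl n hn ζ₀ hζ₀ e).rings.a2 r = toY r := rfl

theorem nodeInputDt_cR
    (c : constK₁ (annulusLevels_modular_final B hB hqM (nonempty_crossing Dt) e) Sl j) :
    (nodeInputDt j hj Dt Sl n hn ζ₀ hζ₀ e).rings.cR c
      = algebraMap (constK₁ (annulusLevels_modular_final B hB hqM (nonempty_crossing Dt) e) Sl j)
        (NodeB (thickK₁ (annulusLevels_modular_final B hB hqM (nonempty_crossing Dt) e) Sl j))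
        c := rfl

theorem nodeInputDt_φ :
    (nodeInputDt j hj Dt Sl n hn ζ₀ hζ₀ e).φ
      = BLift.iotaWS B hB hqM (nonempty_crossing Dt) e j Sl := rfl

theorem nodeInputDt_b1 :
    (nodeInputDt j hj Dt Sl n hn ζ₀ hζ₀ e).b1
      = (BLift.nodePartComp B hB hqM (nonempty_crossing Dt) e j hj Sl).b1 := rfl

theorem nodeInputDt_b2 :
    (nodeInputDt j hj Dt Sl n hn ζ₀ hζ₀ e).b2
      = (BLift.nodePartComp B hB hqM (nonempty_crossing Dt) e j hj Sl).b2 := rfl

end proj


end Fermat.Agent.FF3.GlueNode
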