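import Mathlib
import Fermat.Agent.BR.Inst.Levels

/-!
# Programme I, node T3-FRAME (F7): a primitive root of unity in the integers of the level

Roots of unity are units of every valuation ring; hence a primitive `n`-th root of unity of the
coefficient field `KS q S` of a level is a primitive `n`-th root of unity of its ring of integers
`WS B q S = B ∩ KS q S`.
-/

set_option autoImplicit false

namespace Fermat.Agent.FF3.GlueNode

open Fermat.Agent.BR.Inst.Levels

/-- a root of unity lies in every valuation subring -/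
theorem mem_valuationSubring_of_pow_eq_one {K : Type*} [Field K] (B : ValuationSubring K) {ζ : K}
    {n : ℕ} (hn : n ≠ 0) (h : ζ ^ n = 1) : ζ ∈ B := by
  rw [← B.valuation_le_one_iff]
  have h1 : B.valuation ζ ^ n = 1 := by rw [← map_pow, h, map_one]
  exact ((pow_eq_one_iff_of_nonneg zero_le hn).mp h1).le

/-- a primitive root of unity of a subring, from one of the ambient ring lying in the subring -/
theorem isPrimitiveRoot_subring {R : Type*} [CommRing R] (T : Subring R) {ζ : R} {n : ℕ}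
    (hζ : IsPrimitiveRoot ζ n) (hmem : ζ ∈ T) : IsPrimitiveRoot (⟨ζ, hmem⟩ : T) n :=
  IsPrimitiveRoot.of_map_of_injective (f := T.subtype) (show IsPrimitiveRoot (T.subtype ⟨ζ, hmem⟩) n
    from hζ) Subtype.val_injective

local notation "Kb" => AlgebraicClosure ℚ

/-- **(F7)** a primitive `n`-th root of unity of `KS q S` is one of `WS B q S`. -/
theorem exists_isPrimitiveRoot_WS (B : ValuationSubring Kb) {q : ℕ} {S : Finset Kb} {n : ℕ}
    (hn : n ≠ 0) (h : ∃ ζ ∈ KS q S, IsPrimitiveRoot ζ n) :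
    ∃ ζ₀ : ↥(WS B q S), IsPrimitiveRoot ζ₀ n ∧ IsPrimitiveRoot (ζ₀ : Kb) n := by
  obtain ⟨ζ, hK, hζ⟩ := h
  have hB : ζ ∈ B := mem_valuationSubring_of_pow_eq_one B hn hζ.pow_eq_one
  have hW : ζ ∈ WS B q S := mem_WS_iff.mpr ⟨hB, hK⟩
  exact ⟨⟨ζ, hW⟩, isPrimitiveRoot_subring (WS B q S) hζ hW, hζ⟩

/-- the explicit form: the root itself, as an element of `WS B q S` -/
def rootWS (B : ValuationSubring Kb) {q : ℕ} {S : Finset Kb} {n : ℕ} (hn : n ≠ 0) {ζ : Kb}
    (hK : ζ ∈ KS q S) (hζ : IsPrimitiveRoot ζ n) : ↥(WS B q S) :=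
  ⟨ζ, mem_WS_iff.mpr ⟨mem_valuationSubring_of_pow_eq_one B hn hζ.pow_eq_one, hK⟩⟩

@[simp] theorem coe_rootWS (B : ValuationSubring Kb) {q : ℕ} {S : Finset Kb} {n : ℕ} (hn : n ≠ 0)
    {ζ : Kb} (hK : ζ ∈ KS q S) (hζ : IsPrimitiveRoot ζ n) :
    ((rootWS B hn hK hζ : ↥(WS B q S)) : Kb) = ζ := rfl

theorem isPrimitiveRoot_rootWS (B : ValuationSubring Kb) {q : ℕ} {S : Finset Kb} {n : ℕ}
    (hn : n ≠ 0) {ζ : Kb} (hK : ζ ∈ KS q S) (hζ : IsPrimitiveRoot ζ n) :
    IsPrimitiveRoot (rootWS B hn hK hζ) n :=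
  isPrimitiveRoot_subring (WS B q S) hζ _

end Fermat.Agent.FF3.GlueNode
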